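import Mathlib

set_option autoImplicit false
set_option linter.style.haveILetI false

namespace Fermat.Agent.S57

open IsLocalRing

theorem isArtinian_of_finite_of_maximalIdeal_smul_eq_zero {𝒪 : Type} [CommRing 𝒪] [IsLocalRing 𝒪]
    (Q : Type) [AddCommGroup Q] [Module 𝒪 Q] [Module.Finite 𝒪 Q]
    (h : ∀ a ∈ maximalIdeal 𝒪, ∀ x : Q, a • x = 0) : IsArtinian 𝒪 Q := by
  have htors : Module.IsTorsionBySet 𝒪 Q (maximalIdeal 𝒪 : Set 𝒪) := by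
    intro x a
    exact h a.1 a.2 x
  letI : Module (𝒪 ⧸ maximalIdeal 𝒪) Q := htors.module
  haveI : IsScalarTower 𝒪 (𝒪 ⧸ maximalIdeal 𝒪) Q := htors.isScalarTower
  haveI : Module.Finite (𝒪 ⧸ maximalIdeal 𝒪) Q :=
    Module.Finite.of_restrictScalars_finite 𝒪 (𝒪 ⧸ maximalIdeal 𝒪) Q
  haveI : IsArtinianRing (𝒪 ⧸ maximalIdeal 𝒪) :=
    inferInstanceAs (IsArtinianRing (ResidueField 𝒪))
  haveI : IsArtinian (𝒪 ⧸ maximalIdeal 𝒪) Q := inferInstance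
  exact isArtinian_of_surjective_algebraMap (R := 𝒪 ⧸ maximalIdeal 𝒪) (S := 𝒪)
    Ideal.Quotient.mk_surjective

theorem isFiniteLength_of_tower {𝒪 A : Type} [CommRing 𝒪] [IsLocalRing 𝒪] [IsNoetherianRing 𝒪]
    [CommRing A] [Algebra 𝒪 A]
    (Q : Type) [AddCommGroup Q] [Module 𝒪 Q] [Module A Q] [IsScalarTower 𝒪 A Q]
    [Module.Finite 𝒪 Q]
    (h : ∀ a ∈ maximalIdeal 𝒪, ∀ x : Q, a • x = 0) : IsFiniteLength A Q := by
  rw [isFiniteLength_iff_isNoetherian_isArtinian]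
  exact ⟨isNoetherian_of_tower 𝒪 inferInstance,
    isArtinian_of_tower 𝒪 (isArtinian_of_finite_of_maximalIdeal_smul_eq_zero Q h)⟩

end Fermat.Agent.S57
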