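import Mathlib

set_option autoImplicit false

namespace Fermat.Agent.S57

open CategoryTheory IsLocalRing RingTheory.Sequence

section

variable {A : Type} [CommRing A] [IsLocalRing A]

/-- Finite length modules have projective dimension bounded by that of the residue field. -/
theorem hasProjectiveDimensionLT_of_isFiniteLength (n : ℕ)
    (hk : HasProjectiveDimensionLT (ModuleCat.of A (A ⧸ maximalIdeal A)) (n + 1))
    (Q : Type) [AddCommGroup Q] [Module A Q] (hQ : IsFiniteLength A Q) :
    HasProjectiveDimensionLT (ModuleCat.of A Q) (n + 1) := by
  induction hQ with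
  | of_subsingleton =>
    rename_i M _ _ _
    have h0 : Limits.IsZero (ModuleCat.of A M) := ModuleCat.isZero_of_subsingleton _
    have := h0.hasProjectiveDimensionLT_zero
    exact hasProjectiveDimensionLT_of_ge _ 0 _ (Nat.zero_le _)
  | of_simple_quotient h ih =>
    rename_i M _ _ N' hsimple
    obtain ⟨m, hm, ⟨e⟩⟩ := isSimpleModule_iff_quot_maximal.mp hsimple
    rw [eq_maximalIdeal hm] at e
    let S := (N'.mkQ).shortComplexKer
    have hS : S.ShortExact := LinearMap.shortExact_shortComplexKer (Submodule.mkQ_surjective N')
    have e1 : N' ≃ₗ[A] LinearMap.ker N'.mkQ := LinearEquiv.ofEq _ _ (Submodule.ker_mkQ N').symm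
    have h1 : HasProjectiveDimensionLT S.X₁ (n + 1) := by
      have := ih
      exact ModuleCat.hasProjectiveDimensionLE_of_linearEquiv
        (M := ModuleCat.of A N') (N := S.X₁) e1 n
    have h3 : HasProjectiveDimensionLT S.X₃ (n + 1) := by
      have := hk
      exact ModuleCat.hasProjectiveDimensionLE_of_linearEquiv
        (M := ModuleCat.of A (A ⧸ maximalIdeal A)) (N := S.X₃) e.symm n
    exact hS.hasProjectiveDimensionLT_X₂ (n + 1) h1 h3

variable [IsNoetherianRing A]

/-- Special case of the Auslander–Buchsbaum formula: if the maximal ideal of the noetherian local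
ring `A` is generated by a regular sequence of length `n`, and a finitely generated module `N`
has a weakly regular sequence in the maximal ideal of the same length `n` with
finite length quotient, then `N` is free. -/
theorem free_of_isWeaklyRegular_of_isFiniteLength
    (t : List A) (ht : IsRegular A t) (htm : Ideal.ofList t = maximalIdeal A)
    (N : Type) [AddCommGroup N] [Module A N] [Module.Finite A N]
    (a : List A) (ha : IsWeaklyRegular N a) (ham : ∀ x ∈ a, x ∈ maximalIdeal A)
    (hlen : a.length = t.length)
    (hfl : IsFiniteLength A (N ⧸ Ideal.ofList a • (⊤ : Submodule A N))) :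
    Module.Free A N := by
  rcases subsingleton_or_nontrivial N with hN | hN
  · exact Module.Free.of_subsingleton A N
  -- projective dimension of the residue field
  have hk0 := ModuleCat.projectiveDimension_quotient_eq_length.{0} t ht
  have hk : HasProjectiveDimensionLT (ModuleCat.of A (A ⧸ maximalIdeal A)) (t.length + 1) := by
    have h1 : HasProjectiveDimensionLE
        (ModuleCat.of A (Shrink.{0} (A ⧸ Ideal.ofList t))) t.length := by
      rw [← projectiveDimension_le_iff, hk0]
    rw [htm] at h1
    exact ModuleCat.hasProjectiveDimensionLE_of_linearEquiv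
      (M := ModuleCat.of A (Shrink.{0} (A ⧸ maximalIdeal A)))
      (N := ModuleCat.of A (A ⧸ maximalIdeal A)) (Shrink.linearEquiv A _) t.length
  have hQ := hasProjectiveDimensionLT_of_isFiniteLength t.length hk _ hfl
  have hpd := ModuleCat.projectiveDimension_quotient_eq_add_length_of_isWeaklyRegular
    (ModuleCat.of A N) a ha ham
  have hle : projectiveDimension (ModuleCat.of A (N ⧸ Ideal.ofList a • (⊤ : Submodule A N)))
      ≤ (t.length : ℕ) := by
    rw [projectiveDimension_le_iff]
    exact hQ
  have hle2 : projectiveDimension (ModuleCat.of A N) + (a.length : ℕ) ≤ (a.length : ℕ) := by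
    rw [hlen]
    rw [hlen] at hpd
    rw [← hpd]
    exact hle
  have hle3 : projectiveDimension (ModuleCat.of A N) ≤ (0 : ℕ) := by
    have h0 : projectiveDimension (ModuleCat.of A N) + (a.length : ℕ) ≤
        ((0 : ℕ) : WithBot ℕ∞) + (a.length : ℕ) := by
      simpa using hle2
    exact (ENat.WithBot.add_le_add_natCast_right_iff).mp h0
  rw [projectiveDimension_le_iff] at hle3
  have hproj : Projective (ModuleCat.of A N) :=
    (projective_iff_hasProjectiveDimensionLE_zero _).mpr hle3
  have : Module.Projective A N := (IsProjective.iff_projective N).mpr hproj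
  exact Module.free_of_flat_of_isLocalRing

end

end Fermat.Agent.S57
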