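import Mathlib

set_option autoImplicit false

namespace Fermat.Agent.S57

open MvPowerSeries RingTheory.Sequence

section

variable {σ : Type} {R : Type} [CommRing R]

/-- The ideal of power series all of whose coefficients at exponents vanishing on `s` vanish. -/
def vanishIdeal (s : Set σ) : Ideal (MvPowerSeries σ R) where
  carrier := {f | ∀ m : σ →₀ ℕ, (∀ j ∈ s, m j = 0) → coeff m f = 0}
  zero_mem' := by intro m _; simp
  add_mem' := by
    intro f g hf hg m hm
    simp only [Set.mem_ofPred_eq] at hf hg
    simp [hf m hm, hg m hm]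
  smul_mem' := by
    intro c f hf m hm
    classical
    simp only [Set.mem_ofPred_eq] at hf
    rw [smul_eq_mul, coeff_mul]
    apply Finset.sum_eq_zero
    rintro ⟨p, q⟩ hpq
    rw [Finset.HasAntidiagonal.mem_antidiagonal] at hpq
    have hq : ∀ j ∈ s, q j = 0 := by
      intro j hj
      have h1 := hm j hj
      rw [← hpq] at h1
      simp only [Finsupp.coe_add, Pi.add_apply, Nat.add_eq_zero_iff] at h1
      exact h1.2
    simp [hf q hq]

theorem mem_vanishIdeal_iff (s : Set σ) (f : MvPowerSeries σ R) :
    f ∈ vanishIdeal (R := R) s ↔ ∀ m : σ →₀ ℕ, (∀ j ∈ s, m j = 0) → coeff m f = 0 := Iff.rfl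

theorem X_mem_vanishIdeal (s : Set σ) (j : σ) (hj : j ∈ s) :
    (X j : MvPowerSeries σ R) ∈ vanishIdeal (R := R) s := by
  classical
  intro m hm
  rw [coeff_X, if_neg]
  intro h
  have := hm j hj
  rw [h] at this
  simp at this

theorem span_X_image_eq_vanishIdeal (s : Finset σ) :
    Ideal.span ((X : σ → MvPowerSeries σ R) '' (s : Set σ)) = vanishIdeal (R := R) (s : Set σ) := by
  classical
  apply le_antisymm
  · rw [Ideal.span_le]
    rintro _ ⟨j, hj, rfl⟩
    exact X_mem_vanishIdeal _ j hj
  · induction s using Finset.induction_on with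
    | empty =>
      intro f hf
      have : f = 0 := by
        ext m
        rw [mem_vanishIdeal_iff] at hf
        simpa using hf m (by simp)
      rw [this]
      exact Ideal.zero_mem _
    | insert i s' hi ih =>
      intro f hf
      rw [mem_vanishIdeal_iff] at hf
      -- remainder: the part of `f` not involving `X i`
      let rem : MvPowerSeries σ R := fun m => if m i = 0 then coeff m f else 0
      have hrem : ∀ m, coeff m rem = if m i = 0 then coeff m f else 0 := fun m => rfl
      have h1 : rem ∈ vanishIdeal (R := R) (s' : Set σ) := by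
        intro m hm
        rw [hrem]
        split_ifs with h0
        · apply hf
          intro j hj
          simp only [Finset.coe_insert, Set.mem_insert_iff, Finset.mem_coe] at hj
          rcases hj with rfl | hj
          · exact h0
          · exact hm j hj
        · rfl
      have h2 : (X i : MvPowerSeries σ R) ∣ f - rem := by
        rw [X_dvd_iff]
        intro m hm
        rw [map_sub, hrem, if_pos hm, sub_self]
      have h3 : f = (f - rem) + rem := by ring
      rw [h3]
      apply Ideal.add_mem
      · obtain ⟨q, hq⟩ := h2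
        rw [hq]
        apply Ideal.mul_mem_right
        apply Ideal.subset_span
        exact ⟨i, by simp, rfl⟩
      · have := ih h1
        refine Ideal.span_mono ?_ this
        apply Set.image_mono
        simp
end

section seq

variable {R : Type} [CommRing R] (r : ℕ) (a : R)

theorem ofList_take_ofFn_X (i : ℕ) :
    Ideal.ofList ((List.ofFn (fun j : Fin r => (X j : MvPowerSeries (Fin r) R))).take i) =
      vanishIdeal (R := R) {j : Fin r | j.val < i} := by
  have h1 : {x | x ∈ (List.ofFn (fun j : Fin r => (X j : MvPowerSeries (Fin r) R))).take i} =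
      (X : Fin r → MvPowerSeries (Fin r) R) ''
        ((Finset.univ.filter (fun j : Fin r => j.val < i) : Finset (Fin r)) : Set (Fin r)) := by
    ext x
    simp only [Set.mem_ofPred_eq, List.mem_take_iff_getElem, List.length_ofFn, List.getElem_ofFn,
      Finset.coe_filter, Finset.mem_univ, true_and, Set.mem_image]
    constructor
    · rintro ⟨k, hk, rfl⟩
      rw [lt_min_iff] at hk
      exact ⟨⟨k, hk.2⟩, hk.1, rfl⟩
    · rintro ⟨j, hj, rfl⟩
      exact ⟨j.val, lt_min_iff.mpr ⟨hj, j.isLt⟩, rfl⟩
  unfold Ideal.ofList
  rw [h1, span_X_image_eq_vanishIdeal]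
  congr 1
  ext j
  simp

theorem ofList_ofFn_X :
    Ideal.ofList (List.ofFn (fun j : Fin r => (X j : MvPowerSeries (Fin r) R))) =
      vanishIdeal (R := R) (Set.univ : Set (Fin r)) := by
  have := ofList_take_ofFn_X (R := R) r r
  rw [List.take_of_length_le (by simp)] at this
  rw [this]
  congr 1
  ext j
  simp

/-- The sequence `X_0, ..., X_{r-1}, C a`. -/
noncomputable def paramSeq : List (MvPowerSeries (Fin r) R) :=
  List.ofFn (fun i : Fin r => (X i : MvPowerSeries (Fin r) R)) ++ [C a]

theorem isWeaklyRegular_ofFn_X :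
    IsWeaklyRegular (MvPowerSeries (Fin r) R)
      (List.ofFn (fun i : Fin r => (X i : MvPowerSeries (Fin r) R))) := by
  rw [isWeaklyRegular_iff]
  intro i hi
  have hi' : i < r := by simpa using hi
  rw [isSMulRegular_quotient_iff_mem_of_smul_mem]
  intro f hf
  rw [smul_eq_mul, Ideal.mul_top, ofList_take_ofFn_X] at hf ⊢
  rw [List.getElem_ofFn, smul_eq_mul] at hf
  rw [mem_vanishIdeal_iff] at hf ⊢
  intro m hm
  have h1 := hf (m + Finsupp.single ⟨i, hi'⟩ 1) (by
    intro j hj
    have hne : (⟨i, hi'⟩ : Fin r) ≠ j := by
      intro h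
      rw [← h] at hj
      simp at hj
    simp [hm j hj, Finsupp.single_eq_of_ne' hne])
  rw [mul_comm, X, coeff_add_mul_monomial, mul_one] at h1
  exact h1

theorem isWeaklyRegular_paramSeq (ha : IsSMulRegular R a) :
    IsWeaklyRegular (MvPowerSeries (Fin r) R) (paramSeq r a) := by
  unfold paramSeq
  rw [isWeaklyRegular_append_iff]
  refine ⟨isWeaklyRegular_ofFn_X r, ?_⟩
  rw [isWeaklyRegular_singleton_iff, isSMulRegular_quotient_iff_mem_of_smul_mem]
  intro f hf
  rw [smul_eq_mul, Ideal.mul_top, ofList_ofFn_X] at hf ⊢
  rw [mem_vanishIdeal_iff] at hf ⊢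
  intro m hm
  have hm0 : m = 0 := by
    ext j
    simpa using hm j (Set.mem_univ j)
  subst hm0
  have h1 := hf 0 (by simp)
  rw [smul_eq_mul, coeff_zero_eq_constantCoeff_apply, map_mul, constantCoeff_C] at h1
  rw [coeff_zero_eq_constantCoeff_apply]
  exact ha (by simpa using h1)


theorem ofList_paramSeq_eq_maximalIdeal [IsLocalRing R]
    (ha : IsLocalRing.maximalIdeal R = Ideal.span {a}) :
    Ideal.ofList (paramSeq r a) = IsLocalRing.maximalIdeal (MvPowerSeries (Fin r) R) := by
  unfold paramSeq
  rw [Ideal.ofList_append, ofList_ofFn_X, Ideal.ofList_singleton]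
  have hCa : (C a : MvPowerSeries (Fin r) R) ∈
      IsLocalRing.maximalIdeal (MvPowerSeries (Fin r) R) := by
    rw [IsLocalRing.mem_maximalIdeal, mem_nonunits_iff, isUnit_iff_constantCoeff, constantCoeff_C,
      ← mem_nonunits_iff, ← IsLocalRing.mem_maximalIdeal, ha]
    exact Ideal.mem_span_singleton_self a
  apply le_antisymm
  · rw [sup_le_iff]
    constructor
    · intro f hf
      rw [mem_vanishIdeal_iff] at hf
      rw [IsLocalRing.mem_maximalIdeal, mem_nonunits_iff, isUnit_iff_constantCoeff,
        ← coeff_zero_eq_constantCoeff_apply, hf 0 (by simp)]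
      exact not_isUnit_zero
    · rw [Ideal.span_le]
      intro x hx
      rw [Set.mem_singleton_iff] at hx
      rw [hx]
      exact hCa
  · intro f hf
    rw [IsLocalRing.mem_maximalIdeal, mem_nonunits_iff, isUnit_iff_constantCoeff,
      ← mem_nonunits_iff, ← IsLocalRing.mem_maximalIdeal, ha, Ideal.mem_span_singleton'] at hf
    obtain ⟨u, hu⟩ := hf
    have h3 : f = (f - C (u * a)) + C u * C a := by
      rw [map_mul]; ring
    rw [h3]
    apply Ideal.add_mem
    · apply Ideal.mem_sup_left
      rw [mem_vanishIdeal_iff]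
      intro m hm
      have hm0 : m = 0 := by
        ext j
        simpa using hm j (Set.mem_univ j)
      subst hm0
      rw [coeff_zero_eq_constantCoeff_apply, map_sub, constantCoeff_C, hu, sub_self]
    · apply Ideal.mem_sup_right
      apply Ideal.mul_mem_left
      exact Ideal.mem_span_singleton_self _

theorem isRegular_paramSeq [IsLocalRing R] (ha : IsSMulRegular R a)
    (ham : IsLocalRing.maximalIdeal R = Ideal.span {a}) :
    IsRegular (MvPowerSeries (Fin r) R) (paramSeq r a) := by
  refine ⟨isWeaklyRegular_paramSeq r a ha, ?_⟩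
  rw [smul_eq_mul, Ideal.mul_top, ofList_paramSeq_eq_maximalIdeal r a ham]
  exact (Ideal.IsPrime.ne_top inferInstance).symm

theorem length_paramSeq : (paramSeq r a).length = r + 1 := by
  simp [paramSeq]

end seq

end Fermat.Agent.S57
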