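import Fermat.Statements.S57
import Fermat.Agent.S57.Homological
import Fermat.Agent.S57.PowerSeriesSeq
import Fermat.Agent.S57.FiniteLength

set_option autoImplicit false
set_option linter.style.haveILetI false

namespace Fermat.Agent.S57

open MvPowerSeries RingTheory.Sequence IsLocalRing

section main

variable {𝒪 : Type} [CommRing 𝒪]
    {r : ℕ} {R : Type} [CommRing R] [Algebra 𝒪 R]
    {M : Type} [AddCommGroup M] [Module R M]
    (L : Algebra.PatchingLevel 𝒪 r R M ⊥)

/-- The coordinate map `c ↦ ∑ φ (c i) • b i`. -/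
noncomputable def coordHom : (Fin L.d → MvPowerSeries (Fin r) 𝒪) →+ L.N where
  toFun c := ∑ i, L.φ (c i) • L.b i
  map_zero' := by simp
  map_add' := by
    intro c c'
    simp [add_smul, Finset.sum_add_distrib]

theorem coordHom_apply (c : Fin L.d → MvPowerSeries (Fin r) 𝒪) :
    coordHom L c = ∑ i, L.φ (c i) • L.b i := rfl

theorem coordHom_bijective : Function.Bijective (coordHom L) := by
  constructor
  · rw [injective_iff_map_eq_zero]
    intro c hc
    have := (L.b_rel c).mp hc
    funext i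
    simpa using this i
  · intro x
    obtain ⟨c, hc⟩ := L.b_span x
    exact ⟨c, hc.symm⟩

/-- The coordinate map as an additive equivalence. -/
noncomputable def coordEquiv : (Fin L.d → MvPowerSeries (Fin r) 𝒪) ≃+ L.N :=
  AddEquiv.ofBijective (coordHom L) (coordHom_bijective L)

theorem coordEquiv_smul (a : MvPowerSeries (Fin r) 𝒪) (c : Fin L.d → MvPowerSeries (Fin r) 𝒪) :
    coordEquiv L (a • c) = L.φ a • coordEquiv L c := by
  show coordHom L (a • c) = L.φ a • coordHom L c
  simp [coordHom_apply, Finset.smul_sum, smul_smul, map_mul]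

theorem isWeaklyRegular_map_phi (t : List (MvPowerSeries (Fin r) 𝒪))
    (ht : IsWeaklyRegular (MvPowerSeries (Fin r) 𝒪) t) :
    IsWeaklyRegular L.N (t.map L.φ) := by
  have h1 : IsWeaklyRegular (Fin L.d → MvPowerSeries (Fin r) 𝒪) t := by
    have h2 := ht.isWeaklyRegular_rTensor (M₂ := Fin L.d → MvPowerSeries (Fin r) 𝒪)
    exact ((TensorProduct.lid _ _).isWeaklyRegular_congr t).mp h2
  refine ((coordEquiv L).isWeaklyRegular_congr ?_).mp h1
  exact List.forall₂_map_right_iff.mpr <| List.forall₂_same.mpr fun a _ x => coordEquiv_smul L a x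

theorem finite_N : Module.Finite (MvPowerSeries (Fin r) 𝒪) L.N := by
  apply Module.Finite.of_surjective (Fintype.linearCombination (MvPowerSeries (Fin r) 𝒪) L.b)
  intro x
  obtain ⟨c, hc⟩ := L.b_span x
  exact ⟨fun i => L.φ (c i), by simp [Fintype.linearCombination_apply, hc]⟩

theorem phi_C (a : 𝒪) : L.φ (C a) = (C a : MvPowerSeries (Fin r) 𝒪) := by
  have := L.φ.commutes a
  simpa [MvPowerSeries.algebraMap_apply] using this

theorem phi_sub_C_mem (ϖ : 𝒪) (f : MvPowerSeries (Fin r) 𝒪) :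
    L.φ f - C (constantCoeff f) ∈ Ideal.ofList ((paramSeq r ϖ).map L.φ) := by
  have h1 : f - C (constantCoeff f) ∈ Ideal.ofList (paramSeq r ϖ) := by
    unfold paramSeq
    rw [Ideal.ofList_append, ofList_ofFn_X]
    apply Ideal.mem_sup_left
    rw [mem_vanishIdeal_iff]
    intro m hm
    have hm0 : m = 0 := by
      ext j
      simpa using hm j (Set.mem_univ j)
    subst hm0
    rw [coeff_zero_eq_constantCoeff_apply, map_sub, constantCoeff_C, sub_self]
  have h2 := Ideal.mem_map_of_mem (L.φ : MvPowerSeries (Fin r) 𝒪 →+* MvPowerSeries (Fin r) 𝒪) h1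
  rw [Ideal.map_ofList] at h2
  simpa [phi_C] using h2

theorem C_mem_ofList_map (ϖ : 𝒪) :
    (C ϖ : MvPowerSeries (Fin r) 𝒪) ∈ Ideal.ofList ((paramSeq r ϖ).map L.φ) := by
  apply Ideal.subset_span
  show C ϖ ∈ (paramSeq r ϖ).map L.φ
  rw [List.mem_map]
  exact ⟨C ϖ, by simp [paramSeq], phi_C L ϖ⟩

theorem isFiniteLength_quot [IsLocalRing 𝒪] [IsNoetherianRing 𝒪] (ϖ : 𝒪)
    (hϖ : maximalIdeal 𝒪 = Ideal.span {ϖ}) :
    IsFiniteLength (MvPowerSeries (Fin r) 𝒪)
      (L.N ⧸ (Ideal.ofList ((paramSeq r ϖ).map L.φ) •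
        (⊤ : Submodule (MvPowerSeries (Fin r) 𝒪) L.N))) := by
  letI : Module 𝒪 L.N := Module.compHom L.N (algebraMap 𝒪 (MvPowerSeries (Fin r) 𝒪))
  haveI : IsScalarTower 𝒪 (MvPowerSeries (Fin r) 𝒪) L.N :=
    IsScalarTower.of_algebraMap_smul (fun _ _ => rfl)
  have hsm : ∀ (a : 𝒪) (x : L.N), a • x = (C a : MvPowerSeries (Fin r) 𝒪) • x := by
    intro a x
    rw [← algebraMap_smul (MvPowerSeries (Fin r) 𝒪) a x, MvPowerSeries.algebraMap_apply]
    rfl
  set P : Submodule (MvPowerSeries (Fin r) 𝒪) L.N :=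
    Ideal.ofList ((paramSeq r ϖ).map L.φ) • (⊤ : Submodule (MvPowerSeries (Fin r) 𝒪) L.N) with hP
  haveI : Module.Finite 𝒪 (L.N ⧸ P) := by
    apply Module.Finite.of_surjective
      (Fintype.linearCombination 𝒪 (fun i => (P.mkQ (L.b i) : L.N ⧸ P)))
    intro y
    obtain ⟨x, rfl⟩ := P.mkQ_surjective y
    obtain ⟨c, hc⟩ := L.b_span x
    refine ⟨fun i => constantCoeff (c i), ?_⟩
    rw [Fintype.linearCombination_apply, hc, map_sum]
    apply Finset.sum_congr rfl
    intro i _
    rw [← LinearMap.map_smul_of_tower, Submodule.mkQ_apply, Submodule.mkQ_apply,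
      eq_comm, Submodule.Quotient.eq, hsm, ← sub_smul]
    exact Submodule.smul_mem_smul (phi_sub_C_mem L ϖ (c i)) Submodule.mem_top
  apply isFiniteLength_of_tower (𝒪 := 𝒪)
  intro a ha y
  obtain ⟨x, rfl⟩ := P.mkQ_surjective y
  rw [hϖ, Ideal.mem_span_singleton'] at ha
  obtain ⟨u, rfl⟩ := ha
  rw [← LinearMap.map_smul_of_tower, Submodule.mkQ_apply, Submodule.Quotient.mk_eq_zero, hsm,
    map_mul]
  exact Submodule.smul_mem_smul (Ideal.mul_mem_left _ _ (C_mem_ofList_map L ϖ)) Submodule.mem_top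

theorem free_N [IsDomain 𝒪] [IsDiscreteValuationRing 𝒪] [Nontrivial M] :
    Module.Free (MvPowerSeries (Fin r) 𝒪) L.N := by
  obtain ⟨ϖ, hϖ⟩ := IsDiscreteValuationRing.exists_irreducible 𝒪
  have hmax : maximalIdeal 𝒪 = Ideal.span {ϖ} := hϖ.maximalIdeal_eq
  have hreg : IsSMulRegular 𝒪 ϖ := by
    intro x y hxy
    exact mul_left_cancel₀ hϖ.ne_zero hxy
  haveI := finite_N L
  have ht := isRegular_paramSeq r ϖ hreg hmax
  have htm := ofList_paramSeq_eq_maximalIdeal r ϖ hmax
  refine free_of_isWeaklyRegular_of_isFiniteLength (paramSeq r ϖ) ht htm L.N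
    ((paramSeq r ϖ).map L.φ) (isWeaklyRegular_map_phi L _ ht.toIsWeaklyRegular) ?_ (by simp)
    (isFiniteLength_quot L ϖ hmax)
  intro x hx
  rw [List.mem_map] at hx
  obtain ⟨y, hy, rfl⟩ := hx
  unfold paramSeq at hy
  rw [List.mem_append, List.mem_ofFn, List.mem_singleton] at hy
  rcases hy with ⟨i, rfl⟩ | rfl
  · rw [mem_maximalIdeal, mem_nonunits_iff]
    intro hu
    have h0 := hu.map L.ψ
    rw [L.ψ_φ_X] at h0
    haveI : Nontrivial R := Module.nontrivial R M
    exact not_isUnit_zero h0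
  · rw [phi_C, ← htm]
    apply Ideal.subset_span
    show C ϖ ∈ paramSeq r ϖ
    simp [paramSeq]

theorem mem_smul_top_iff_repr {A' N' ι : Type} [CommRing A'] [AddCommGroup N'] [Module A' N']
    (bas : Module.Basis ι A' N') (I : Ideal A') (x : N') :
    x ∈ I • (⊤ : Submodule A' N') ↔ ∀ j, bas.repr x j ∈ I := by
  rw [← bas.span_eq, Submodule.mem_ideal_smul_span_iff_exists_sum]
  constructor
  · rintro ⟨a, ha, rfl⟩ j
    have : bas.repr (a.sum fun i c => c • bas i) = a := by
      have h1 : (a.sum fun i c => c • bas i) = Finsupp.linearCombination A' bas a := by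
        rw [Finsupp.linearCombination_apply]
      rw [h1, bas.repr_linearCombination]
    rw [this]
    exact ha j
  · intro h
    refine ⟨bas.repr x, h, ?_⟩
    have h1 : ((bas.repr x).sum fun i c => c • bas i) =
        Finsupp.linearCombination A' bas (bas.repr x) := by
      rw [Finsupp.linearCombination_apply]
    rw [h1, bas.linearCombination_repr]

theorem main_result [IsDomain 𝒪] [IsDiscreteValuationRing 𝒪] [Nontrivial M] :
    Module.Free R M ∧ Module.annihilator R M = ⊥ ∧
      RingHom.ker L.ψ = Ideal.span (Set.range fun i : Fin r => L.φ (MvPowerSeries.X i)) := by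
  haveI := free_N L
  haveI := finite_N L
  set I := Ideal.span (Set.range fun i : Fin r => L.φ (MvPowerSeries.X i)) with hI
  let ι := Module.Free.ChooseBasisIndex (MvPowerSeries (Fin r) 𝒪) L.N
  let bas : Module.Basis ι (MvPowerSeries (Fin r) 𝒪) L.N :=
    Module.Free.chooseBasis (MvPowerSeries (Fin r) 𝒪) L.N
  haveI : Fintype ι := Module.Free.ChooseBasisIndex.fintype _ _
  haveI : Nontrivial L.N := L.π_surjective.nontrivial
  haveI : Nonempty ι := bas.index_nonempty
  have hmem : ∀ x : L.N, x ∈ I • (⊤ : Submodule (MvPowerSeries (Fin r) 𝒪) L.N) ↔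
      ∀ j, bas.repr x j ∈ I := fun x => mem_smul_top_iff_repr bas I x
  have hIker : I ≤ RingHom.ker L.ψ := by
    rw [Ideal.span_le]
    rintro _ ⟨i, rfl⟩
    exact L.ψ_φ_X i
  have hπsum : ∀ f : ι → MvPowerSeries (Fin r) 𝒪,
      L.π (∑ j, f j • bas j) = ∑ j, L.ψ (f j) • L.π (bas j) := by
    intro f
    rw [map_sum]
    simp [L.π_smul]
  have hli : LinearIndependent R (fun j => L.π (bas j)) := by
    rw [Fintype.linearIndependent_iff]
    intro g hg j
    choose f hf using fun j => L.ψ_surjective (g j)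
    have h0 : L.π (∑ j, f j • bas j) = 0 := by
      rw [hπsum]
      simpa [hf] using hg
    rw [L.ker_π, hmem] at h0
    have h1 := h0 j
    rw [bas.repr_sum_self] at h1
    rw [← hf j]
    exact hIker h1
  have hsp : ⊤ ≤ Submodule.span R (Set.range fun j => L.π (bas j)) := by
    intro y _
    obtain ⟨x, rfl⟩ := L.π_surjective y
    rw [← bas.sum_repr x, hπsum]
    exact Submodule.sum_mem _ fun j _ =>
      Submodule.smul_mem _ _ (Submodule.subset_span ⟨j, rfl⟩)
  have hfree : Module.Free R M := Module.Free.of_basis (Module.Basis.mk hli hsp)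
  refine ⟨hfree, ?_, ?_⟩
  · rw [Module.annihilator_eq_bot]
    infer_instance
  · apply le_antisymm _ hIker
    intro f hf
    obtain ⟨j⟩ := ‹Nonempty ι›
    have h0 : L.π (f • bas j) = 0 := by
      rw [L.π_smul, (RingHom.mem_ker).mp hf, zero_smul]
    rw [L.ker_π, hmem] at h0
    simpa using h0 j

end main

end Fermat.Agent.S57
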