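import Mathlib

/-!
Final assembly step for S57: from freeness of `N` over `B`, deduce that the quotient
`M = N / I N` (on which `B` acts through a surjection `ψ : B → R` killing `I`) is free and
faithful over `R`, and that `ker ψ = I`.
-/

set_option autoImplicit false

namespace Fermat.Agent.S57

open Function

section Assembly

variable {B R N M : Type*} [CommRing B] [CommRing R]
  [AddCommGroup N] [Module B N] [AddCommGroup M] [Module R M]

/-- Coordinates of an element of `I • ⊤` with respect to a basis all lie in `I`. -/
theorem repr_mem_of_mem_smul_top {ι : Type*} (b : Module.Basis ι B N) (I : Ideal B) {x : N}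
    (hx : x ∈ I • (⊤ : Submodule B N)) (j : ι) : b.repr x j ∈ I := by
  rw [← b.span_eq, Submodule.mem_ideal_smul_span_iff_exists_sum] at hx
  obtain ⟨a, ha, rfl⟩ := hx
  have : b.repr (a.sum fun i c => c • b i) = a := by
    have h := b.repr_linearCombination a
    rwa [Finsupp.linearCombination_apply] at h
  rw [this]
  exact ha j

/-- `π` of a finite `B`-linear combination. -/
theorem pi_sum_smul {ι : Type*} (ψ : B →+* R) (π : N →+ M)
    (hπ_smul : ∀ (f : B) (x : N), π (f • x) = ψ f • π x) (v : ι → N) (c : ι →₀ B) :
    π (c.sum fun i a => a • v i) = c.sum fun i a => ψ a • π (v i) := by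
  rw [Finsupp.sum, map_sum]
  exact Finset.sum_congr rfl fun i _ => hπ_smul _ _

theorem assembly [Nontrivial M] [Module.Free B N]
    (ψ : B →+* R) (hψ : Surjective ψ) (I : Ideal B) (hI : I ≤ RingHom.ker ψ)
    (π : N →+ M) (hπ_smul : ∀ (f : B) (x : N), π (f • x) = ψ f • π x)
    (hπ_surj : Surjective π)
    (hker : ∀ x : N, π x = 0 ↔ x ∈ I • (⊤ : Submodule B N)) :
    Module.Free R M ∧ Module.annihilator R M = ⊥ ∧ RingHom.ker ψ = I := by
  classical
  let ι := Module.Free.ChooseBasisIndex B N
  let b : Module.Basis ι B N := Module.Free.chooseBasis B N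
  -- the comparison map
  let g : (ι →₀ R) →ₗ[R] M := Finsupp.linearCombination R fun j => π (b j)
  -- key computation
  have hg : ∀ c : ι →₀ B, g (c.mapRange ψ (map_zero ψ)) = π (c.sum fun i a => a • b i) := by
    intro c
    rw [pi_sum_smul ψ π hπ_smul, Finsupp.linearCombination_apply]
    exact Finsupp.sum_mapRange_index (fun _ => zero_smul _ _)
  have hg_inj : Injective g := by
    rw [← LinearMap.ker_eq_bot, LinearMap.ker_eq_bot']
    intro rr hrr
    obtain ⟨c, rfl⟩ := Finsupp.mapRange_surjective ψ (map_zero ψ) hψ rr
    rw [hg, hker] at hrr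
    ext j
    have h1 := repr_mem_of_mem_smul_top b I hrr j
    have h2 : b.repr (c.sum fun i a => a • b i) = c := by
      have h := b.repr_linearCombination c
      rwa [Finsupp.linearCombination_apply] at h
    rw [h2] at h1
    simpa using hI h1
  have hg_surj : Surjective g := by
    intro m
    obtain ⟨x, rfl⟩ := hπ_surj m
    refine ⟨(b.repr x).mapRange ψ (map_zero ψ), ?_⟩
    rw [hg]
    congr 1
    have h := b.linearCombination_repr x
    rwa [Finsupp.linearCombination_apply] at h
  let e : (ι →₀ R) ≃ₗ[R] M := LinearEquiv.ofBijective g ⟨hg_inj, hg_surj⟩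
  have hfree : Module.Free R M := Module.Free.of_equiv e
  -- `ι` is nonempty because `M` is nontrivial
  have hne : Nonempty ι := by
    by_contra h
    rw [not_nonempty_iff] at h
    have : Subsingleton M := e.symm.injective.subsingleton
    exact not_subsingleton M this
  obtain ⟨j₀⟩ := hne
  refine ⟨hfree, ?_, ?_⟩
  · -- faithfulness
    rw [eq_bot_iff]
    intro a ha
    rw [Module.mem_annihilator] at ha
    have h1 : g (Finsupp.single j₀ a) = 0 := by
      simp only [g, Finsupp.linearCombination_single]
      exact ha _
    have h2 : Finsupp.single j₀ a = 0 := hg_inj (by rw [h1, map_zero])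
    have h3 := DFunLike.congr_fun h2 j₀
    simpa using h3
  · -- `ker ψ = I`
    refine le_antisymm ?_ hI
    intro f hf
    rw [RingHom.mem_ker] at hf
    have h1 : π (f • b j₀) = 0 := by rw [hπ_smul, hf, zero_smul]
    rw [hker] at h1
    have h2 := repr_mem_of_mem_smul_top b I h1 j₀
    simpa using h2

end Assembly

end Fermat.Agent.S57
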