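import Fermat.Agent.S57.Assembly
import Fermat.Prelude.Def_Algebra_PatchingDatum
import Mathlib.RingTheory.DiscreteValuationRing.Basic

/-!
S57 from freeness of `L.N` over the power series ring.
-/

set_option autoImplicit false

namespace Fermat.Agent.S57

theorem result_of_free
    {𝒪 : Type} [CommRing 𝒪]
    {r : ℕ} {R : Type} [CommRing R] [Algebra 𝒪 R]
    {M : Type} [AddCommGroup M] [Module R M] [Nontrivial M]
    {J : Ideal (MvPowerSeries (Fin r) 𝒪)}
    (L : Algebra.PatchingLevel 𝒪 r R M J)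
    (hfree : Module.Free (MvPowerSeries (Fin r) 𝒪) L.N) :
    Module.Free R M ∧ Module.annihilator R M = ⊥ ∧
      RingHom.ker L.ψ = Ideal.span (Set.range fun i : Fin r => L.φ (MvPowerSeries.X i)) := by
  have hI : Ideal.span (Set.range fun i : Fin r => L.φ (MvPowerSeries.X i)) ≤
      RingHom.ker (L.ψ : MvPowerSeries (Fin r) 𝒪 →+* R) := by
    rw [Ideal.span_le]
    rintro _ ⟨i, rfl⟩
    exact L.ψ_φ_X i
  have h := assembly (L.ψ : MvPowerSeries (Fin r) 𝒪 →+* R) L.ψ_surjective _ hI L.π
    (fun f x => L.π_smul f x) L.π_surjective L.ker_π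
  exact h

end Fermat.Agent.S57
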