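import Mathlib

set_option autoImplicit false

/-!
# Homological core for S57

Over a noetherian local ring `R` whose maximal ideal is generated by an `R`-regular sequence of
length `n`, a finitely generated module `N` admitting a weakly regular sequence of length `n`
inside the maximal ideal with finite-length quotient is free.
-/

namespace Fermat.Agent.S57

open CategoryTheory Abelian IsLocalRing Module RingTheory.Sequence

universe u

variable {R : Type u} [CommRing R] [IsLocalRing R] [IsNoetherianRing R]

/-- The residue field of a local ring whose maximal ideal is generated by a regular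
sequence of length `n` has projective dimension `≤ n`. -/
lemma hasProjectiveDimensionLE_quot_maximalIdeal (rs : List R) (reg : IsRegular R rs)
    (hm : Ideal.ofList rs = maximalIdeal R) :
    HasProjectiveDimensionLE (ModuleCat.of R (R ⧸ maximalIdeal R)) rs.length := by
  have h := ModuleCat.projectiveDimension_quotient_eq_length.{u, u} rs reg
  have e : (Shrink.{u} (R ⧸ Ideal.ofList rs)) ≃ₗ[R] (R ⧸ maximalIdeal R) :=
    (Shrink.linearEquiv R _).trans (Submodule.quotEquivOfEq _ _ hm)
  rw [ModuleCat.projectiveDimension_eq_of_linearEquiv
    (M := ModuleCat.of R (Shrink.{u} (R ⧸ Ideal.ofList rs)))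
    (N := ModuleCat.of R (R ⧸ maximalIdeal R)) e] at h
  rw [← projectiveDimension_le_iff, h]

lemma hasProjectiveDimensionLE_of_isSimpleModule (rs : List R) (reg : IsRegular R rs)
    (hm : Ideal.ofList rs = maximalIdeal R) (X : Type u) [AddCommGroup X] [Module R X]
    [IsSimpleModule R X] : HasProjectiveDimensionLE (ModuleCat.of R X) rs.length := by
  obtain ⟨I, hI, ⟨e⟩⟩ := isSimpleModule_iff_quot_maximal.mp (inferInstance : IsSimpleModule R X)
  have hI' : I = maximalIdeal R := IsLocalRing.eq_maximalIdeal hI
  subst hI'
  have := hasProjectiveDimensionLE_quot_maximalIdeal rs reg hm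
  exact ModuleCat.hasProjectiveDimensionLE_of_linearEquiv
    (M := ModuleCat.of R (R ⧸ maximalIdeal R)) (N := ModuleCat.of R X) e.symm rs.length

/-- Finite length modules over a (regular) local ring whose maximal ideal is generated by a
regular sequence of length `n` have projective dimension `≤ n`. -/
lemma hasProjectiveDimensionLE_of_isFiniteLength (rs : List R) (reg : IsRegular R rs)
    (hm : Ideal.ofList rs = maximalIdeal R) (X : Type u) [AddCommGroup X] [Module R X]
    (hX : IsFiniteLength R X) : HasProjectiveDimensionLE (ModuleCat.of R X) rs.length := by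
  induction hX with
  | @of_subsingleton M _ _ _ =>
    have hz : Limits.IsZero (ModuleCat.of R M) := ModuleCat.isZero_of_subsingleton _
    have := hz.hasProjectiveDimensionLT_zero
    exact hasProjectiveDimensionLT_of_ge _ 0 _ (Nat.zero_le _)
  | @of_simple_quotient M _ _ N _ _ ih =>
    let f : M →ₗ[R] M ⧸ N := N.mkQ
    have hS : f.shortComplexKer.ShortExact :=
      LinearMap.shortExact_shortComplexKer (Submodule.mkQ_surjective N)
    have h3 : HasProjectiveDimensionLE (ModuleCat.of R (M ⧸ N)) rs.length :=
      hasProjectiveDimensionLE_of_isSimpleModule rs reg hm (M ⧸ N)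
    have e : N ≃ₗ[R] LinearMap.ker f := LinearEquiv.ofEq _ _ (Submodule.ker_mkQ N).symm
    have h1 : HasProjectiveDimensionLE (ModuleCat.of R (LinearMap.ker f)) rs.length :=
      ModuleCat.hasProjectiveDimensionLE_of_linearEquiv
        (M := ModuleCat.of R N) (N := ModuleCat.of R (LinearMap.ker f)) e rs.length
    exact hS.hasProjectiveDimensionLT_X₂ (rs.length + 1) h1 h3

/-- **Maximal Cohen–Macaulay modules over a regular local ring are free**, in the form needed:
if the maximal ideal of the noetherian local ring `R` is generated by an `R`-regular sequence `rs`,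
and the finitely generated module `N` has a weakly regular sequence `rs'` of the same length inside
the maximal ideal such that `N ⧸ (rs') N` has finite length, then `N` is free. -/
theorem free_of_isWeaklyRegular_of_isFiniteLength (rs : List R) (reg : IsRegular R rs)
    (hm : Ideal.ofList rs = maximalIdeal R)
    (N : Type u) [AddCommGroup N] [Module R N] [Module.Finite R N]
    (rs' : List R) (hlen : rs'.length = rs.length) (hmem : ∀ r ∈ rs', r ∈ maximalIdeal R)
    (hreg : IsWeaklyRegular N rs')
    (hfl : IsFiniteLength R (N ⧸ Ideal.ofList rs' • (⊤ : Submodule R N))) :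
    Module.Free R N := by
  rcases subsingleton_or_nontrivial N with hN | hN
  · exact Module.Free.of_subsingleton R N
  · have h1 := ModuleCat.projectiveDimension_quotient_eq_add_length_of_isWeaklyRegular.{u, u}
      (ModuleCat.of R N) rs' hreg hmem
    have h2 : HasProjectiveDimensionLE
        (ModuleCat.of R (N ⧸ Ideal.ofList rs' • (⊤ : Submodule R N))) rs.length :=
      hasProjectiveDimensionLE_of_isFiniteLength rs reg hm _ hfl
    rw [← projectiveDimension_le_iff] at h2
    change projectiveDimension (ModuleCat.of R (N ⧸ Ideal.ofList rs' • (⊤ : Submodule R N))) = _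
      at h1
    rw [h1, hlen] at h2
    have h3 : projectiveDimension (ModuleCat.of R N) ≤ ((0 : ℕ) : WithBot ℕ∞) := by
      have : projectiveDimension (ModuleCat.of R N) + (rs.length : WithBot ℕ∞)
          ≤ ((0 : ℕ) : WithBot ℕ∞) + (rs.length : WithBot ℕ∞) := by
        simpa using h2
      exact ENat.WithBot.add_le_add_natCast_right_iff.mp this
    rw [projectiveDimension_le_iff, ← projective_iff_hasProjectiveDimensionLE_zero,
      ← IsProjective.iff_projective] at h3
    exact Module.free_of_flat_of_isLocalRing

end Fermat.Agent.S57
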