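import Mathlib

set_option autoImplicit false

namespace Fermat.Agent.S57

open MvPowerSeries RingTheory.Sequence

section General

variable {σ : Type*} {R : Type*} [CommRing R]

/-- The ideal of power series all of whose coefficients at monomials vanishing on `s`
lie in the ideal `𝔞`. -/
def coeffIdeal (s : Set σ) (𝔞 : Ideal R) : Ideal (MvPowerSeries σ R) where
  carrier := {f | ∀ m : σ →₀ ℕ, (∀ i ∈ s, m i = 0) → coeff m f ∈ 𝔞}
  add_mem' := by
    intro f g hf hg m hm
    rw [map_add]
    exact 𝔞.add_mem (hf m hm) (hg m hm)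
  zero_mem' := by
    intro m _
    rw [map_zero]
    exact 𝔞.zero_mem
  smul_mem' := by
    intro g f hf m hm
    classical
    rw [smul_eq_mul, coeff_mul]
    refine Ideal.sum_mem _ ?_
    rintro ⟨a, b⟩ hab
    have hab' : a + b = m := Finset.HasAntidiagonal.mem_antidiagonal.mp hab
    refine Ideal.mul_mem_left _ _ (hf b ?_)
    intro i hi
    have h1 := hm i hi
    have h2 : (a + b) i = a i + b i := rfl
    rw [hab'] at h2
    omega

lemma mem_coeffIdeal {s : Set σ} {𝔞 : Ideal R} {f : MvPowerSeries σ R} :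
    f ∈ coeffIdeal s 𝔞 ↔ ∀ m : σ →₀ ℕ, (∀ i ∈ s, m i = 0) → coeff m f ∈ 𝔞 :=
  Iff.rfl

lemma coeffIdeal_mono {s t : Set σ} (h : s ⊆ t) (𝔞 : Ideal R) :
    coeffIdeal s 𝔞 ≤ coeffIdeal t 𝔞 := by
  intro f hf m hm
  exact hf m (fun i hi => hm i (h hi))

lemma X_mem_coeffIdeal {s : Set σ} (𝔞 : Ideal R) {a : σ} (ha : a ∈ s) :
    (X a : MvPowerSeries σ R) ∈ coeffIdeal s 𝔞 := by
  classical
  intro m hm
  rw [coeff_X, if_neg]
  · exact 𝔞.zero_mem
  · intro h
    have := hm a ha
    rw [h] at this
    simp at this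

/-- `X a` is a nonzerodivisor modulo `coeffIdeal s 𝔞` when `a ∉ s`. -/
lemma mem_coeffIdeal_of_X_mul_mem {s : Set σ} {𝔞 : Ideal R} {a : σ} (ha : a ∉ s)
    {f : MvPowerSeries σ R} (hf : X a * f ∈ coeffIdeal s 𝔞) : f ∈ coeffIdeal s 𝔞 := by
  classical
  intro m hm
  have h1 : coeff (Finsupp.single a 1 + m) (X a * f) ∈ 𝔞 := by
    apply hf
    intro i hi
    have hia : i ≠ a := fun h => ha (h ▸ hi)
    simp [hm i hi, hia.symm]
  rwa [X_def, coeff_add_monomial_mul, one_mul] at h1

/-- the "divide by `X a`" operator -/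
noncomputable def divX (a : σ) (f : MvPowerSeries σ R) : MvPowerSeries σ R :=
  fun m => coeff (Finsupp.single a 1 + m) f

lemma coeff_divX (a : σ) (f : MvPowerSeries σ R) (m : σ →₀ ℕ) :
    coeff m (divX a f) = coeff (Finsupp.single a 1 + m) f := rfl

lemma coeff_X_mul_divX (a : σ) (f : MvPowerSeries σ R) (m : σ →₀ ℕ) :
    coeff m (X a * divX a f) = if m a = 0 then 0 else coeff m f := by
  classical
  rw [X_def, coeff_monomial_mul, one_mul]
  by_cases h : m a = 0
  · rw [if_pos h, if_neg]
    intro hle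
    have := hle a
    simp [h] at this
  · have hle : Finsupp.single a 1 ≤ m := by
      intro i
      by_cases hi : i = a
      · subst hi
        simp only [Finsupp.single_eq_same]
        omega
      · simp [Ne.symm hi]
    rw [if_neg h, if_pos hle, coeff_divX, add_tsub_cancel_of_le hle]

lemma coeffIdeal_insert (s : Set σ) (𝔞 : Ideal R) (a : σ) :
    coeffIdeal (insert a s) 𝔞 = Ideal.span {(X a : MvPowerSeries σ R)} ⊔ coeffIdeal s 𝔞 := by
  apply le_antisymm
  · intro f hf
    have hdec : f = X a * divX a f + (f - X a * divX a f) := by ring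
    rw [hdec]
    refine Ideal.add_mem _ (Ideal.mem_sup_left ?_) (Ideal.mem_sup_right ?_)
    · exact Ideal.mul_mem_right _ _ (Ideal.subset_span rfl)
    · intro m hm
      rw [map_sub, coeff_X_mul_divX]
      by_cases h : m a = 0
      · rw [if_pos h, sub_zero]
        apply hf
        intro i hi
        rcases hi with rfl | hi
        · exact h
        · exact hm i hi
      · rw [if_neg h, sub_self]
        exact 𝔞.zero_mem
  · refine sup_le ?_ (coeffIdeal_mono (Set.subset_insert a s) 𝔞)
    rw [Ideal.span_le, Set.singleton_subset_iff]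
    exact X_mem_coeffIdeal 𝔞 (Set.mem_insert a s)

lemma coeffIdeal_empty_span (ϖ : R) :
    coeffIdeal (∅ : Set σ) (Ideal.span {ϖ}) =
      Ideal.span {(C ϖ : MvPowerSeries σ R)} := by
  apply le_antisymm
  · intro f hf
    have h : ∀ m : σ →₀ ℕ, ∃ c : R, coeff m f = ϖ * c := by
      intro m
      have := hf m (fun i hi => absurd hi (Set.notMem_empty i))
      rw [Ideal.mem_span_singleton] at this
      exact this
    choose g hg using h
    let G : MvPowerSeries σ R := g
    have : f = C ϖ * G := by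
      ext m
      rw [coeff_C_mul, hg m]
      rfl
    rw [this]
    exact Ideal.mul_mem_right _ _ (Ideal.subset_span rfl)
  · rw [Ideal.span_le, Set.singleton_subset_iff]
    intro m _
    rw [← mul_one (C ϖ), coeff_C_mul]
    exact Ideal.mul_mem_right _ _ (Ideal.subset_span rfl)

lemma coeffIdeal_finset_span (s : Finset σ) (ϖ : R) :
    coeffIdeal (s : Set σ) (Ideal.span {ϖ}) =
      Ideal.span {(C ϖ : MvPowerSeries σ R)} ⊔
        Ideal.span ((fun i => (X i : MvPowerSeries σ R)) '' (s : Set σ)) := by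
  classical
  induction s using Finset.induction_on with
  | empty =>
    rw [Finset.coe_empty, Set.image_empty, Ideal.span_empty, sup_bot_eq, coeffIdeal_empty_span]
  | insert a s _ ih =>
    rw [Finset.coe_insert, coeffIdeal_insert, ih, Set.image_insert_eq, Ideal.span_insert]
    ac_rfl

end General

section Main

variable {𝒪 : Type*} [CommRing 𝒪] (r : ℕ) (ϖ : 𝒪)

/-- The list `[C ϖ, X 0, …, X (r-1)]` of power series in `r` variables. -/
noncomputable def paramList : List (MvPowerSeries (Fin r) 𝒪) :=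
  C ϖ :: List.ofFn (fun i : Fin r => (X i : MvPowerSeries (Fin r) 𝒪))

lemma length_paramList : (paramList r ϖ).length = r + 1 := by
  simp [paramList]

lemma ofList_take_ofFn_X (j : ℕ) :
    Ideal.ofList ((List.ofFn (fun i : Fin r => (X i : MvPowerSeries (Fin r) 𝒪))).take j) =
      Ideal.span ((fun i => (X i : MvPowerSeries (Fin r) 𝒪)) '' {i : Fin r | i.val < j}) := by
  unfold Ideal.ofList
  congr 1
  ext x
  simp only [Set.mem_ofPred_eq, Set.mem_image]
  rw [List.mem_take_iff_getElem]
  constructor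
  · rintro ⟨i, hi, rfl⟩
    rw [List.length_ofFn, lt_min_iff] at hi
    refine ⟨⟨i, hi.2⟩, hi.1, ?_⟩
    rw [List.getElem_ofFn]
  · rintro ⟨i, hi, rfl⟩
    refine ⟨i.val, ?_, ?_⟩
    · rw [List.length_ofFn, lt_min_iff]
      exact ⟨hi, i.isLt⟩
    · rw [List.getElem_ofFn]

lemma ofList_take_paramList (j : ℕ) :
    Ideal.ofList ((paramList r ϖ).take (j + 1)) =
      coeffIdeal {i : Fin r | i.val < j} (Ideal.span {ϖ}) := by
  have hs : {i : Fin r | i.val < j} =
      ((Finset.univ.filter (fun i : Fin r => i.val < j) : Finset (Fin r)) : Set (Fin r)) := by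
    ext i; simp
  rw [paramList, List.take_succ_cons, Ideal.ofList_cons, ofList_take_ofFn_X, hs,
    coeffIdeal_finset_span]

lemma ofList_paramList :
    Ideal.ofList (paramList r ϖ) = coeffIdeal (Set.univ : Set (Fin r)) (Ideal.span {ϖ}) := by
  have h := ofList_take_paramList r ϖ r
  have h1 : (paramList r ϖ).take (r + 1) = paramList r ϖ := by
    apply List.take_of_length_le
    rw [length_paramList]
  have h2 : {i : Fin r | i.val < r} = Set.univ := by
    ext i; simp
  rw [h1, h2] at h
  exact h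

lemma mem_coeffIdeal_univ {𝔞 : Ideal 𝒪} {f : MvPowerSeries (Fin r) 𝒪} :
    f ∈ coeffIdeal (Set.univ : Set (Fin r)) 𝔞 ↔ constantCoeff f ∈ 𝔞 := by
  constructor
  · intro h
    exact h 0 (fun i _ => rfl)
  · intro h m hm
    have : m = 0 := by
      ext i
      exact hm i (Set.mem_univ i)
    rw [this]
    exact h

theorem isWeaklyRegular_paramList [IsDomain 𝒪] (hϖ : ϖ ≠ 0) :
    IsWeaklyRegular (MvPowerSeries (Fin r) 𝒪) (paramList r ϖ) := by
  refine ⟨fun i hi => ?_⟩
  rw [isSMulRegular_quotient_iff_mem_of_smul_mem]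
  rcases i with _ | j
  · intro f hf
    simp only [List.take_zero, Ideal.ofList_nil, Submodule.bot_smul, Submodule.mem_bot] at hf ⊢
    have h0 : (paramList r ϖ)[0] = C ϖ := rfl
    rw [h0, smul_eq_mul] at hf
    ext m
    have := congrArg (coeff m) hf
    rw [coeff_C_mul, map_zero] at this
    rw [map_zero]
    exact (mul_eq_zero.mp this).resolve_left hϖ
  · intro f hf
    rw [length_paramList] at hi
    have hj : j < r := by omega
    have hI : (Ideal.ofList ((paramList r ϖ).take (j + 1)) •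
        (⊤ : Submodule (MvPowerSeries (Fin r) 𝒪) (MvPowerSeries (Fin r) 𝒪))) =
        coeffIdeal {i : Fin r | i.val < j} (Ideal.span {ϖ}) := by
      rw [smul_eq_mul, Ideal.mul_top, ofList_take_paramList]
    rw [hI] at hf ⊢
    have hx : (paramList r ϖ)[j + 1] = X (⟨j, hj⟩ : Fin r) := by
      simp [paramList]
    rw [hx, smul_eq_mul] at hf
    refine mem_coeffIdeal_of_X_mul_mem ?_ hf
    simp

theorem isRegular_paramList [IsDomain 𝒪] (hϖ : ϖ ≠ 0) (hu : ¬ IsUnit ϖ) :
    IsRegular (MvPowerSeries (Fin r) 𝒪) (paramList r ϖ) := by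
  refine ⟨isWeaklyRegular_paramList r ϖ hϖ, ?_⟩
  intro h
  rw [smul_eq_mul, Ideal.mul_top, ofList_paramList] at h
  have h1 : (1 : MvPowerSeries (Fin r) 𝒪) ∈
      coeffIdeal (Set.univ : Set (Fin r)) (Ideal.span {ϖ}) := by
    rw [← h]; trivial
  rw [mem_coeffIdeal_univ, map_one, Ideal.mem_span_singleton] at h1
  exact hu (isUnit_of_dvd_one h1)

theorem maximalIdeal_eq_ofList_paramList [IsDomain 𝒪] [IsDiscreteValuationRing 𝒪]
    (hϖ : Irreducible ϖ) :
    IsLocalRing.maximalIdeal (MvPowerSeries (Fin r) 𝒪) = Ideal.ofList (paramList r ϖ) := by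
  rw [ofList_paramList]
  ext f
  rw [mem_coeffIdeal_univ, ← hϖ.maximalIdeal_eq, IsLocalRing.mem_maximalIdeal,
    IsLocalRing.mem_maximalIdeal, mem_nonunits_iff, mem_nonunits_iff,
    MvPowerSeries.isUnit_iff_constantCoeff]

end Main

end Fermat.Agent.S57
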