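import Mathlib

/-!
# Maximal Cohen–Macaulay modules over regular local rings are free

Abstract commutative algebra used for S57:  if `(B, m)` is a Noetherian local ring whose maximal
ideal is generated by `n` elements and `N` is a finite `B`-module admitting a weakly regular
sequence of length `n` inside `m`, then `N` is free.
-/

set_option autoImplicit false
set_option linter.unusedSectionVars false

open RingTheory.Sequence IsLocalRing Module Pointwise CategoryTheory Abelian

namespace Fermat.Agent.S57

universe u

variable {B : Type u} [CommRing B]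

/-- elements killed by an ideal -/
def killedBy (N : Type u) [AddCommGroup N] [Module B N] (I : Ideal B) : Submodule B N where
  carrier := {x | ∀ a ∈ I, a • x = 0}
  add_mem' := by
    intro x y hx hy a ha
    simp [smul_add, hx a ha, hy a ha]
  zero_mem' := by intro a _; simp
  smul_mem' := by
    intro c x hx a ha
    have := hx a ha
    rw [smul_comm, this, smul_zero]

lemma mem_killedBy {N : Type u} [AddCommGroup N] [Module B N] (I : Ideal B) (x : N) :
    x ∈ killedBy N I ↔ ∀ a ∈ I, a • x = 0 := Iff.rfl

lemma zero_le_supportDim_of_nontrivial (K : Type u) [AddCommGroup K] [Module B K] [Nontrivial K] :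
    (0 : WithBot ℕ∞) ≤ supportDim B K := by
  have h := Module.supportDim_ne_bot_of_nontrivial B K
  obtain ⟨n, hn⟩ := WithBot.ne_bot_iff_exists.mp h
  rw [← hn]
  exact WithBot.coe_le_coe.mpr zero_le

variable [IsLocalRing B] [IsNoetherianRing B]

/-- `depth N ≤ dim K` for every nonzero submodule `K` of `N`. -/
theorem le_supportDim_of_isWeaklyRegular
    {N : Type u} [AddCommGroup N] [Module B N] [Module.Finite B N]
    (gs : List B) (hmem : ∀ g ∈ gs, g ∈ maximalIdeal B) (hreg : IsWeaklyRegular N gs)
    (K : Submodule B N) (hK : K ≠ ⊥) : (gs.length : WithBot ℕ∞) ≤ supportDim B K := by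
  induction gs generalizing N with
  | nil =>
    have : Nontrivial K := Submodule.nontrivial_iff_ne_bot.mpr hK
    simpa using zero_le_supportDim_of_nontrivial (B := B) K
  | cons g gs ih =>
    obtain ⟨hg, hgs⟩ := (isWeaklyRegular_cons_iff N g gs).mp hreg
    have hgm : g ∈ maximalIdeal B := hmem g List.mem_cons_self
    have hmem' : ∀ x ∈ gs, x ∈ maximalIdeal B := fun x hx => hmem x (List.mem_cons_of_mem _ hx)
    have hNoeth : IsNoetherian B N := isNoetherian_of_isNoetherianRing_of_finite B N
    set I := annihilator B K with hI
    set K₁ := killedBy N I with hK₁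
    have hKK₁ : K ≤ K₁ := by
      intro x hx a ha
      exact Module.mem_annihilator.mp ha ⟨x, hx⟩ |> fun h => by simpa using congrArg Subtype.val h
    have hann : annihilator B K₁ = I := by
      apply le_antisymm
      · intro a ha
        rw [hI, Module.mem_annihilator]
        intro ⟨x, hx⟩
        have := Module.mem_annihilator.mp ha ⟨x, hKK₁ hx⟩
        ext
        simpa using congrArg Subtype.val this
      · intro a ha
        rw [Module.mem_annihilator]
        intro ⟨x, hx⟩
        ext
        simpa using hx a ha
    have hK₁ne : K₁ ≠ ⊥ := fun h => hK (le_bot_iff.mp (h ▸ hKK₁))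
    have hdim : supportDim B K₁ = supportDim B K := by
      rw [supportDim_eq_ringKrullDim_quotient_annihilator,
        supportDim_eq_ringKrullDim_quotient_annihilator, hann]
    -- the map K₁/gK₁ → N/gN
    let f : QuotSMulTop g K₁ →ₗ[B] QuotSMulTop g N := QuotSMulTop.map g K₁.subtype
    have hreg₁ : IsSMulRegular K₁ g := by
      intro x y hxy
      apply Subtype.ext
      apply hg
      simpa using congrArg Subtype.val hxy
    have hK₂ : LinearMap.range f ≠ ⊥ := by
      intro hbot
      apply hK₁ne
      apply Submodule.eq_bot_of_le_smul_of_le_jacobson_bot (Ideal.span {g}) K₁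
        (IsNoetherian.noetherian K₁)
      · intro x hx
        have hfx : f (Submodule.Quotient.mk ⟨x, hx⟩) = 0 := by
          have : f (Submodule.Quotient.mk ⟨x, hx⟩) ∈ LinearMap.range f :=
            LinearMap.mem_range_self _ _
          rw [hbot] at this
          simpa using this
        have hx' : x ∈ g • (⊤ : Submodule B N) := by
          have : (Submodule.Quotient.mk x : QuotSMulTop g N) = 0 := hfx
          simpa [Submodule.Quotient.mk_eq_zero] using this
        obtain ⟨z, -, hz⟩ := (Submodule.mem_smul_pointwise_iff_exists _ _ _).mp hx'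
        have hzK : z ∈ K₁ := by
          intro a ha
          apply hg
          have := hx a ha
          rw [← hz, smul_comm] at this
          simpa using this
        rw [Submodule.ideal_span_singleton_smul]
        rw [← hz]
        exact Submodule.smul_mem_pointwise_smul z g K₁ hzK
      · rw [Ideal.span_le]
        intro x hx
        rw [Set.mem_singleton_iff] at hx
        rw [hx]
        exact (maximalIdeal_le_jacobson ⊥) hgm
    have h1 := ih hmem' hgs (LinearMap.range f) hK₂
    have h2 : supportDim B (LinearMap.range f) ≤ supportDim B (QuotSMulTop g K₁) :=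
      supportDim_le_of_surjective f.rangeRestrict f.surjective_rangeRestrict
    have h3 : supportDim B (QuotSMulTop g K₁) + 1 = supportDim B K₁ :=
      supportDim_quotSMulTop_succ_eq_supportDim_mem_jacobson hreg₁
        (maximalIdeal_le_jacobson _ hgm)
    rw [← hdim, ← h3]
    simp only [List.length_cons, Nat.cast_add, Nat.cast_one]
    exact add_le_add_left (h1.trans h2) 1

lemma ofList_cons_mem_maximalIdeal {y : B} {ys : List B}
    (hys : Ideal.ofList (y :: ys) = maximalIdeal B) : y ∈ maximalIdeal B := by
  rw [← hys]
  exact Ideal.subset_span (List.mem_cons_self)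

lemma nontrivial_quotient_span_singleton {y : B} (hy : y ∈ maximalIdeal B) :
    Nontrivial (B ⧸ Ideal.span {y}) := by
  apply Ideal.Quotient.nontrivial_iff.mpr
  intro h
  have : (1 : B) ∈ Ideal.span {y} := by rw [h]; trivial
  have h1 : (1 : B) ∈ maximalIdeal B := (Ideal.span_le.mpr (by simpa using hy)) this
  exact (Ideal.ne_top_iff_one _).mp (maximalIdeal.isMaximal B).ne_top h1

lemma isLocalRing_quotient_span_singleton {y : B} (hy : y ∈ maximalIdeal B) :
    IsLocalRing (B ⧸ Ideal.span {y}) :=
  have := nontrivial_quotient_span_singleton hy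
  IsLocalRing.of_surjective' (Ideal.Quotient.mk _) Ideal.Quotient.mk_surjective

lemma maximalIdeal_quotient_span_singleton {y : B} {ys : List B}
    (hys : Ideal.ofList (y :: ys) = maximalIdeal B)
    [IsLocalRing (B ⧸ Ideal.span {y})] :
    Ideal.ofList (ys.map (Ideal.Quotient.mk (Ideal.span {y}))) =
      maximalIdeal (B ⧸ Ideal.span {y}) := by
  rw [← IsLocalRing.map_maximalIdeal_of_surjective (Ideal.Quotient.mk (Ideal.span {y}))
    Ideal.Quotient.mk_surjective, ← hys, Ideal.map_ofList, List.map_cons, Ideal.ofList_cons]
  have : (Ideal.Quotient.mk (Ideal.span {y})) y = 0 :=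
    Ideal.Quotient.eq_zero_iff_mem.mpr (Ideal.subset_span rfl)
  rw [this]
  simp

lemma spanFinrank_ofList_le (ys : List B) : (Ideal.ofList ys).spanFinrank ≤ ys.length := by
  classical
  have hfin : {r | r ∈ ys}.Finite := List.finite_toSet ys
  refine (Submodule.spanFinrank_span_le_ncard_of_finite hfin).trans ?_
  have : {r | r ∈ ys} = (ys.toFinset : Set B) := by ext; simp
  rw [this, Set.ncard_coe_finset]
  exact List.toFinset_card_le ys

/-- Key lemma: if `m = (y, ys)` and `N` has a weakly regular sequence in `m` of length
`> ys.length`, then `y` is `N`-regular. -/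
theorem isSMulRegular_of_isWeaklyRegular
    {N : Type u} [AddCommGroup N] [Module B N] [Module.Finite B N]
    (y : B) (ys : List B) (hys : Ideal.ofList (y :: ys) = maximalIdeal B)
    (gs : List B) (hmem : ∀ g ∈ gs, g ∈ maximalIdeal B) (hlen : ys.length + 1 ≤ gs.length)
    (hreg : IsWeaklyRegular N gs) : IsSMulRegular N y := by
  have hym := ofList_cons_mem_maximalIdeal hys
  have hNoeth : IsNoetherian B N := isNoetherian_of_isNoetherianRing_of_finite B N
  set K := killedBy N (Ideal.span {y}) with hKdef
  by_cases hK : K = ⊥
  · intro a b hab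
    have hab' : y • a = y • b := hab
    have : a - b ∈ K := by
      intro c hc
      obtain ⟨t, rfl⟩ := Ideal.mem_span_singleton'.mp hc
      rw [mul_smul, smul_sub, hab', sub_self, smul_zero]
    rw [hK, Submodule.mem_bot, sub_eq_zero] at this
    exact this
  · exfalso
    have h1 := le_supportDim_of_isWeaklyRegular gs hmem hreg K hK
    have := isLocalRing_quotient_span_singleton hym
    have h2 : supportDim B K ≤ ringKrullDim (B ⧸ Ideal.span {y}) := by
      rw [supportDim_eq_ringKrullDim_quotient_annihilator]
      have hle : Ideal.span {y} ≤ annihilator B K := by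
        intro a ha
        rw [Module.mem_annihilator]
        intro ⟨x, hx⟩
        ext
        simpa using hx a ha
      exact ringKrullDim_le_of_surjective (Ideal.Quotient.factor hle)
        (Ideal.Quotient.factor_surjective hle)
    have h3 : ringKrullDim (B ⧸ Ideal.span {y}) ≤ (ys.length : WithBot ℕ∞) := by
      refine (ringKrullDim_le_spanFinrank_maximalIdeal _).trans ?_
      rw [← maximalIdeal_quotient_span_singleton hys]
      have := spanFinrank_ofList_le (ys.map (Ideal.Quotient.mk (Ideal.span {y})))
      rw [List.length_map] at this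
      exact_mod_cast this
    have h4 : (gs.length : WithBot ℕ∞) ≤ (ys.length : WithBot ℕ∞) := h1.trans (h2.trans h3)
    have h5 : gs.length ≤ ys.length := by exact_mod_cast h4
    omega

lemma maximalIdeal_smul_top_lt_top (N : Type u) [AddCommGroup N] [Module B N] [Module.Finite B N]
    [Nontrivial N] : (maximalIdeal B) • (⊤ : Submodule B N) < ⊤ := by
  apply lt_of_le_of_ne le_top
  exact (Submodule.top_ne_ideal_smul_of_le_jacobson_annihilator
    (maximalIdeal_le_jacobson _)).symm

set_option maxHeartbeats 4000000 in
theorem exists_isRegular_quotSMulTop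
    {N : Type u} [AddCommGroup N] [Module B N] [Module.Finite B N] [Nontrivial N]
    (gs : List B) (hmem : ∀ g ∈ gs, g ∈ maximalIdeal B) (hreg : IsWeaklyRegular N gs)
    (n : ℕ) (hlen : gs.length = n + 1)
    (y : B) (hy : y ∈ maximalIdeal B) (hyreg : IsSMulRegular N y) :
    ∃ rs : List B, rs.length = n ∧ (∀ r ∈ rs, r ∈ maximalIdeal B) ∧
      IsRegular (QuotSMulTop y N) rs := by
  have hR : IsRegular N gs := IsRegular.of_isWeaklyRegular_of_mem_maximalIdeal N hmem hreg
  have hsupp : Module.support B (B ⧸ maximalIdeal B) = PrimeSpectrum.zeroLocus (maximalIdeal B) := by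
    rw [Module.support_eq_zeroLocus, Ideal.annihilator_quotient]
  have hext : ∀ i < gs.length, Subsingleton (Ext (ModuleCat.of B (B ⧸ maximalIdeal B))
      (ModuleCat.of B N) i) := by
    have := ModuleCat.subsingleton_ext_of_exists_isRegular (maximalIdeal B)
      (ModuleCat.of B (B ⧸ maximalIdeal B)) hsupp.subset (ModuleCat.of B N)
      (maximalIdeal_smul_top_lt_top N) gs hmem hR
    exact this
  have : Nontrivial (QuotSMulTop y N) := nontrivial_quotSMulTop_of_mem_maximalIdeal N hy
  have key : ∀ i < n, Subsingleton (Ext (ModuleCat.of B (B ⧸ maximalIdeal B))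
      (ModuleCat.of B (QuotSMulTop y N)) i) := by
    intro i hi
    have zero1 := AddCommGrpCat.isZero_of_iff_subsingleton.mpr (hext i (by omega))
    have zero2 := AddCommGrpCat.isZero_of_iff_subsingleton.mpr (hext (i + 1) (by omega))
    have hse : (ModuleCat.smulShortComplex (ModuleCat.of B N) y).ShortExact :=
      hyreg.smulShortComplex_shortExact
    have := ShortComplex.Exact.isZero_of_both_zeros
      ((Ext.covariant_sequence_exact₃' (ModuleCat.of B (B ⧸ maximalIdeal B)) hse) i (i + 1) rfl)
      (zero1.eq_zero_of_src _) (zero2.eq_zero_of_tgt _)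
    exact AddCommGrpCat.subsingleton_of_isZero this
  have hlt := maximalIdeal_smul_top_lt_top (B := B) (QuotSMulTop y N)
  exact ModuleCat.exists_isRegular_of_exists_subsingleton_ext (maximalIdeal B) n
    (ModuleCat.of B (QuotSMulTop y N)) hlt
    (ModuleCat.of B (B ⧸ maximalIdeal B)) hsupp key

/-- **Main abstract theorem.** Over a Noetherian local ring whose maximal ideal is generated by
`n` elements, a finite module with a weakly regular sequence of length `n` in the maximal ideal
is free. -/
theorem free_of_isWeaklyRegular_aux (n : ℕ) :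
    ∀ {B : Type u} [CommRing B] [IsLocalRing B] [IsNoetherianRing B]
    {N : Type u} [AddCommGroup N] [Module B N] [Module.Finite B N]
    (ys : List B) (_ : Ideal.ofList ys = maximalIdeal B) (_ : ys.length = n)
    (gs : List B) (_ : ∀ g ∈ gs, g ∈ maximalIdeal B) (_ : gs.length = n)
    (_ : IsWeaklyRegular N gs), Module.Free B N := by
  induction n with
  | zero =>
    intro B _ _ _ N _ _ _ ys hys hn gs hmem hlen hreg
    have hys' : ys = [] := List.length_eq_zero_iff.mp hn
    subst hys'
    rw [Ideal.ofList_nil] at hys
    have hF : IsField B := IsLocalRing.isField_iff_maximalIdeal_eq.mpr hys.symm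
    let _ := hF.toField
    exact Module.Free.of_divisionRing B N
  | succ n ih =>
    intro B _ _ _ N _ _ _ ys hys hn gs hmem hlen hreg
    by_cases hN : Subsingleton N
    · exact Module.Free.of_subsingleton B N
    rw [not_subsingleton_iff_nontrivial] at hN
    obtain ⟨y, ys', rfl⟩ : ∃ y ys', ys = y :: ys' := by
      cases ys with
      | nil => simp at hn
      | cons y ys' => exact ⟨y, ys', rfl⟩
    have hn' : ys'.length = n := by simpa using hn
    have hym := ofList_cons_mem_maximalIdeal hys
    have hyreg : IsSMulRegular N y :=
      isSMulRegular_of_isWeaklyRegular y ys' hys gs hmem (by omega) hreg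
    obtain ⟨rs, hrslen, hrsmem, hrsreg⟩ :=
      exists_isRegular_quotSMulTop gs hmem hreg n hlen y hym hyreg
    have hloc := isLocalRing_quotient_span_singleton hym
    have hfin : Module.Finite (B ⧸ Ideal.span {y}) (QuotSMulTop y N) :=
      Module.Finite.of_restrictScalars_finite B (B ⧸ Ideal.span {y}) (QuotSMulTop y N)
    have hfree : Module.Free (B ⧸ Ideal.span {y}) (QuotSMulTop y N) := by
      refine ih (ys'.map (Ideal.Quotient.mk (Ideal.span {y})))
        (maximalIdeal_quotient_span_singleton hys) (by simpa using hn')
        (rs.map (Ideal.Quotient.mk (Ideal.span {y}))) ?_ (by simpa using hrslen) ?_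
      · intro g hg
        obtain ⟨r, hr, rfl⟩ := List.mem_map.mp hg
        rw [← IsLocalRing.map_maximalIdeal_of_surjective (Ideal.Quotient.mk (Ideal.span {y}))
          Ideal.Quotient.mk_surjective]
        exact Ideal.mem_map_of_mem _ (hrsmem r hr)
      · exact (isWeaklyRegular_map_algebraMap_iff (B ⧸ Ideal.span {y}) (QuotSMulTop y N) rs).mpr
          hrsreg.toIsWeaklyRegular
    have hfp : Module.FinitePresentation B N := Module.finitePresentation_of_finite B N
    have hjac : y ∈ (⊥ : Ideal B).jacobson := by
      rw [IsLocalRing.jacobson_eq_maximalIdeal ⊥ bot_ne_top]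
      exact hym
    exact (Module.free_quotSMulTop_iff_free B N hjac hyreg).mp hfree

theorem free_of_isWeaklyRegular
    {N : Type u} [AddCommGroup N] [Module B N] [Module.Finite B N]
    (ys : List B) (hys : Ideal.ofList ys = maximalIdeal B)
    (gs : List B) (hmem : ∀ g ∈ gs, g ∈ maximalIdeal B) (hlen : gs.length = ys.length)
    (hreg : IsWeaklyRegular N gs) : Module.Free B N :=
  free_of_isWeaklyRegular_aux ys.length ys hys rfl gs hmem hlen hreg

end Fermat.Agent.S57
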